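import Mathlib.NumberTheory.Padics.Hensel
import Mathlib.Tactic

/-!
# Embeddings into `ℤ_[ℓ]`

Embedding `ℤ[a]` into some `ℤ_[ℓ]` with `ℓ` avoiding a given number.
-/

set_option autoImplicit false

noncomputable section

namespace Fermat.Agent.ConductorLevel

open Polynomial

lemma exists_bezout_const {P : ℤ[X]} (hm : P.Monic) (hirr : Irreducible P) :
    ∃ U V : ℤ[X], ∃ D : ℤ, D ≠ 0 ∧ U * P + V * derivative P = C D := by
  have hirrQ : Irreducible (P.map (algebraMap ℤ ℚ)) :=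
    (hm.irreducible_iff_irreducible_map_fraction_map).1 hirr
  obtain ⟨u, v, huv⟩ := hirrQ.separable
  obtain ⟨b, hb, hU⟩ := IsLocalization.integerNormalization_spec (nonZeroDivisors ℤ) u
  obtain ⟨d, hd, hV⟩ := IsLocalization.integerNormalization_spec (nonZeroDivisors ℤ) v
  set U := IsLocalization.integerNormalization (nonZeroDivisors ℤ) u
  set V := IsLocalization.integerNormalization (nonZeroDivisors ℤ) v
  have hsm : ∀ (m : ℤ) (x : ℚ[X]), m • x = C (m : ℚ) * x := fun m x => by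
    rw [zsmul_eq_mul, ← map_intCast (C : ℚ →+* ℚ[X]) m]
  rw [hsm] at hU hV
  refine ⟨C d * U, C b * V, b * d,
    mul_ne_zero (nonZeroDivisors.ne_zero hb) (nonZeroDivisors.ne_zero hd), ?_⟩
  apply map_injective (algebraMap ℤ ℚ) (algebraMap ℤ ℚ).injective_int
  rw [derivative_map] at huv
  simp only [Polynomial.map_add, Polynomial.map_mul, Polynomial.map_C, hU, hV]
  simp only [eq_intCast, Int.cast_mul, C_mul] at huv ⊢
  linear_combination (C ((b : ℤ) : ℚ) * C ((d : ℤ) : ℚ)) * huv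

lemma exists_prime_simple_root {P : ℤ[X]} (hm : P.Monic) (hirr : Irreducible P) {B : ℕ}
    (hB : B ≠ 0) :
    ∃ ℓ : ℕ, ℓ.Prime ∧ ¬ ℓ ∣ B ∧ ∃ n : ℤ, (ℓ : ℤ) ∣ P.eval n ∧
      ¬ (ℓ : ℤ) ∣ (derivative P).eval n := by
  -- A Bezout identity `U P + V P' = D`.
  obtain ⟨U, V, D, hD, hUV⟩ := exists_bezout_const hm hirr
  have hev : ∀ n, U.eval n * P.eval n + V.eval n * (derivative P).eval n = D := fun n => by
    simpa using congrArg (eval n) hUV
  set c := P.eval 0 with hc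
  by_cases hc0 : c = 0
  · obtain ⟨ℓ, hℓB, hℓ⟩ := Nat.exists_infinite_primes (B + D.natAbs + 1)
    refine ⟨ℓ, hℓ, fun hd => ?_, 0, by rw [← hc, hc0]; exact dvd_zero _, fun hd => ?_⟩
    · have := Nat.le_of_dvd (Nat.pos_of_ne_zero hB) hd
      omega
    · have h := hev 0
      rw [← hc, hc0, mul_zero, zero_add] at h
      have hdD : (ℓ : ℤ) ∣ D := h ▸ hd.mul_left _
      have := Nat.le_of_dvd (Int.natAbs_pos.2 hD) (Int.natCast_dvd.1 hdD)
      omega
  set b : ℤ := (B : ℤ) * D with hb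
  have hb0 : b ≠ 0 := mul_ne_zero (Int.natCast_ne_zero.2 hB) hD
  -- Choose `k` so that `P (c b k) = c e` with `e ≠ ±1`.
  set Q := P.comp (C (c * b) * X) with hQ
  have hdeg : 0 < Q.natDegree := by
    rw [hQ, natDegree_comp, natDegree_C_mul (mul_ne_zero hc0 hb0), natDegree_X, mul_one]
    exact hm.natDegree_pos.2 fun h1 => hirr.not_isUnit (h1 ▸ isUnit_one)
  have hne : ∀ x : ℤ, Q - C x ≠ 0 := fun x h0 => by
    rw [sub_eq_zero.1 h0, natDegree_C] at hdeg
    exact lt_irrefl 0 hdeg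
  obtain ⟨k, hk⟩ := Infinite.exists_notMem_finset
    ((Q - C c).roots.toFinset ∪ (Q - C (-c)).roots.toFinset)
  simp only [Finset.mem_union, Multiset.mem_toFinset, mem_roots (hne _), IsRoot.def, eval_sub,
    eval_C, not_or, sub_eq_zero] at hk
  have hQk : Q.eval k = P.eval (c * b * k) := by simp [hQ]
  obtain ⟨w, hw⟩ := sub_dvd_eval_sub (c * b * k) 0 P
  rw [sub_zero, ← hc] at hw
  set e := 1 + b * k * w with he
  have hPe : P.eval (c * b * k) = c * e := by rw [he]; linear_combination hw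
  have he1 : e.natAbs ≠ 1 := by
    intro h1
    rcases Int.natAbs_eq e with h2 | h2 <;> rw [h1] at h2 <;> push_cast at h2
    · exact hk.1 (by rw [hQk, hPe, h2, mul_one])
    · exact hk.2 (by rw [hQk, hPe, h2, mul_neg, mul_one])
  -- A prime dividing `e` divides neither `B` nor `D`.
  obtain ⟨ℓ, hℓ, hℓe⟩ := Nat.exists_prime_and_dvd he1
  have hℓe' : (ℓ : ℤ) ∣ e := Int.natCast_dvd.2 hℓe
  have hℓb : ¬ (ℓ : ℤ) ∣ b := by
    intro hd
    have h1 : (ℓ : ℤ) ∣ 1 := by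
      rw [show (1 : ℤ) = e - b * k * w by rw [he]; ring]
      exact dvd_sub hℓe' ((hd.mul_right k).mul_right w)
    exact hℓ.not_dvd_one (by exact_mod_cast h1)
  have hPn : (ℓ : ℤ) ∣ P.eval (c * b * k) := hPe ▸ hℓe'.mul_left c
  refine ⟨ℓ, hℓ, fun hd => hℓb (dvd_mul_of_dvd_left (Int.natCast_dvd_natCast.2 hd) D),
    c * b * k, hPn, fun hd => hℓb (dvd_mul_of_dvd_right ?_ (B : ℤ))⟩
  rw [← hev (c * b * k)]
  exact dvd_add (hPn.mul_left _) (hd.mul_left _)

/-- `ℤ[a]` maps to some `ℤ_[ℓ]` with `ℓ ∤ B` so that an integral value at `a` determines `a`. -/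
theorem exists_padic_hom {a : ℂ} (ha : IsIntegral ℤ a) {B : ℕ} (hB : B ≠ 0) :
    ∃ (ℓ : ℕ) (_ : Fact ℓ.Prime), ¬ ℓ ∣ B ∧
      ∃ φ : Algebra.adjoin ℤ ({a} : Set ℂ) →+* ℤ_[ℓ],
        ∀ m : ℤ, φ ⟨a, Algebra.self_mem_adjoin_singleton ℤ a⟩ = m → a = m := by
  set P := minpoly ℤ a with hP
  have hm : P.Monic := minpoly.monic ha
  have hirr : Irreducible P := minpoly.irreducible ha
  obtain ⟨ℓ, hℓ, hℓB, n, hn, hn'⟩ := exists_prime_simple_root hm hirr hB
  have := Fact.mk hℓ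
  have hev : ∀ (R : ℤ[X]) (k : ℤ), R.aeval (k : ℤ_[ℓ]) = ((R.eval k : ℤ) : ℤ_[ℓ]) := fun R k => by
    rw [show (k : ℤ_[ℓ]) = algebraMap ℤ ℤ_[ℓ] k by simp, aeval_algebraMap_apply_eq_algebraMap_eval]
    simp
  have hder : ‖(derivative P).aeval (n : ℤ_[ℓ])‖ = 1 := by
    rw [hev]
    refine le_antisymm (PadicInt.norm_le_one _) (not_lt.1 fun h => hn' ?_)
    exact (PadicInt.norm_int_lt_one_iff_dvd _).1 h
  obtain ⟨z, hz, -⟩ := hensels_lemma (F := P) (a := (n : ℤ_[ℓ])) (by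
    rw [hder, one_pow, hev]
    exact (PadicInt.norm_int_lt_one_iff_dvd _).2 hn)
  refine ⟨ℓ, ⟨hℓ⟩, hℓB,
    (AdjoinRoot.lift (algebraMap ℤ ℤ_[ℓ]) z hz).comp (minpoly.equivAdjoin ha).symm.toRingHom,
    fun m hm' => ?_⟩
  have h1 : (minpoly.equivAdjoin ha).symm ⟨a, Algebra.self_mem_adjoin_singleton ℤ a⟩
      = AdjoinRoot.root P := by
    rw [AlgEquiv.symm_apply_eq]
    apply Subtype.ext
    change a = ((_root_.AdjoinRoot.Minpoly.toAdjoin ℤ a) (AdjoinRoot.root (minpoly ℤ a)) : ℂ)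
    simp [_root_.AdjoinRoot.Minpoly.toAdjoin]
  have hzm : z = m := by
    rw [← hm']
    exact ((AdjoinRoot.lift_root hz).symm.trans (congrArg _ h1.symm))
  rw [hzm, hev] at hz
  have hPm : P.eval m = 0 := by exact_mod_cast hz
  obtain ⟨R, hR⟩ := dvd_iff_isRoot.2 (show P.IsRoot m from hPm)
  have hRu : IsUnit R := (hirr.isUnit_or_isUnit hR).resolve_left (not_isUnit_X_sub_C m)
  have ha0 : P.aeval a = 0 := minpoly.aeval ℤ a
  rw [hR, map_mul, map_sub, aeval_X, aeval_C] at ha0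
  rcases mul_eq_zero.1 ha0 with h | h
  · simpa [sub_eq_zero] using h
  · exact absurd h ((hRu.map (aeval a)).ne_zero)

end Fermat.Agent.ConductorLevel
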