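import Fermat.Agent.ConductorLevel.Compare
import Mathlib.RingTheory.Filtration
import Mathlib.RingTheory.DiscreteValuationRing.Basic
import Mathlib.RingTheory.RootsOfUnity.AlgebraicallyClosed

/-!
# Local consequences of the comparison

Local consequences of the comparison: unipotence of inertia and traces of Frobenius at good primes.
-/

set_option autoImplicit false

noncomputable section

open Polynomial

namespace Fermat.Agent.ConductorLevel

local notation "Q̄" => AlgebraicClosure ℚ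

variable {W : WeierstrassCurve ℤ} {O : Type} [CommRing O] [IsDomain O] [IsDiscreteValuationRing O]
  {lam : ℕ}

lemma exists_pow_maximalIdeal_le [CharZero O] (hlam : lam.Prime) (n : ℕ) :
    ∃ N, IsLocalRing.maximalIdeal O ^ N ≤ Ideal.span {((lam ^ n : ℕ) : O)} := by
  obtain ⟨ϖ, hϖ⟩ := IsDiscreteValuationRing.exists_irreducible O
  obtain ⟨N, hN⟩ := IsDiscreteValuationRing.ideal_eq_span_pow_irreducible
    (s := Ideal.span {((lam ^ n : ℕ) : O)})
    (by rw [Ne, Ideal.span_singleton_eq_bot]; exact Nat.cast_ne_zero.2 (pow_ne_zero _ hlam.ne_zero))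
    hϖ
  exact ⟨N, by rw [hN, hϖ.maximalIdeal_eq, Ideal.span_singleton_pow]⟩

lemma eq_zero_of_forall_mem_span (hlamO : (lam : O) ∈ IsLocalRing.maximalIdeal O) {x : O}
    (h : ∀ n : ℕ, x ∈ Ideal.span {((lam ^ n : ℕ) : O)}) : x = 0 := by
  have h1 : x ∈ ⨅ n : ℕ, IsLocalRing.maximalIdeal O ^ n := by
    refine Submodule.mem_iInf _ |>.2 fun n => ?_
    have hle : Ideal.span {((lam ^ n : ℕ) : O)} ≤ IsLocalRing.maximalIdeal O ^ n := by
      rw [Ideal.span_singleton_le_iff_mem, Nat.cast_pow]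
      exact Ideal.pow_mem_pow hlamO n
    exact hle (h n)
  rwa [Ideal.iInf_pow_eq_bot_of_isDomain _ (IsLocalRing.maximalIdeal.isMaximal O).ne_top,
    Submodule.mem_bot] at h1

lemma dvd_sub_of_roots {m : ℕ} [NeZero m] {D D' : ℕ}
    (h : ∀ μ : Q̄, μ ^ m = 1 → μ ^ D = μ ^ D') : (m : ℤ) ∣ (D : ℤ) - D' := by
  obtain ⟨ζ, hζ⟩ := HasEnoughRootsOfUnity.exists_primitiveRoot Q̄ m
  have h1 := h ζ hζ.pow_eq_one
  have hζ0 : ζ ≠ 0 := hζ.ne_zero (NeZero.ne m)
  rw [← hζ.zpow_eq_one_iff_dvd, zpow_sub₀ hζ0, zpow_natCast, zpow_natCast, h1,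
    div_self (pow_ne_zero _ hζ0)]

variable [CharZero O] {ρ : GaloisRepAdic O} {S : Finset ℕ}

/-- An element acting at every level `λ ^ n` by `μ ↦ μ ^ d` on roots of unity and satisfying
`X ^ 2 - a X + d` on the torsion has trace `a` and determinant `d`. -/
theorem trace_det_eq_of_relation (hΔ0 : W.Δ ≠ 0) (hρ : MatchesCurve ρ W S)
    (hS : ∀ ℓ : ℕ, ℓ.Prime → ℓ ∉ S → W.IsGoodPrimeFor ℓ) (hlam : lam.Prime) (hlamS : lam ∈ S)
    (hlamO : (lam : O) ∈ IsLocalRing.maximalIdeal O) {σ : Q̄ ≃ₐ[ℚ] Q̄} {a : ℤ} {d : ℕ}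
    (hroot : ∀ (n : ℕ) (μ : Q̄), μ ^ lam ^ n = 1 → σ μ = μ ^ d)
    (hrel : ∀ (n : ℕ) (P : Pts W), lam ^ n • P = 0 →
      σ • σ • P - a • (σ • P) + (d : ℤ) • P = 0) :
    ρ.trace σ = (a : O) ∧ LinearMap.det (ρ.ρ σ) = (d : O) := by
  have key : ∀ n : ℕ, ρ.trace σ - a ∈ Ideal.span {((lam ^ n : ℕ) : O)} ∧
      LinearMap.det (ρ.ρ σ) - d ∈ Ideal.span {((lam ^ n : ℕ) : O)} := by
    intro n
    obtain ⟨N, hN⟩ := exists_pow_maximalIdeal_le (O := O) hlam n
    -- Modulo `λ ^ n` the element satisfies an integral quadratic relation on torsion.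
    obtain ⟨T, D, hT, hD, hroot', hrel'⟩ := exists_relation hΔ0 hρ hS hlam hlamS hN σ
    have : NeZero (lam ^ n) := ⟨pow_ne_zero _ hlam.ne_zero⟩
    have hDd : ((lam ^ n : ℕ) : ℤ) ∣ (D : ℤ) - d :=
      dvd_sub_of_roots fun μ hμ => by rw [← hroot' μ hμ, hroot n μ hμ]
    -- Compare on a point of exact order `λ ^ n`.
    obtain ⟨P, hP⟩ := exists_point_addOrderOf (W := W) hΔ0 (pow_ne_zero n hlam.ne_zero)
    have hP0 : lam ^ n • P = 0 := hP ▸ addOrderOf_nsmul_eq_zero P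
    have hD0 : ((D : ℤ) - d) • P = 0 := addOrderOf_dvd_iff_zsmul_eq_zero.1 (hP ▸ hDd)
    have hT0 : (a - T) • (σ • P) = 0 := by
      rw [sub_smul] at hD0 ⊢
      linear_combination (norm := abel) hrel' P hP0 - hrel n P hP0 - hD0
    have hTa : ((lam ^ n : ℕ) : ℤ) ∣ a - T := by
      rw [← hP, ← addOrderOf_injective (DistribSMul.toAddMonoidHom (Pts W) σ)
        (MulAction.injective σ) P]
      exact addOrderOf_dvd_iff_zsmul_eq_zero.2 hT0
    constructor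
    · convert Ideal.sub_mem _ hT (mem_span_of_dvd (O := O) hTa) using 1
      push_cast
      ring
    · convert Ideal.add_mem _ hD (mem_span_of_dvd (O := O) hDd) using 1
      push_cast
      ring
  exact ⟨sub_eq_zero.1 (eq_zero_of_forall_mem_span hlamO fun n => (key n).1),
    sub_eq_zero.1 (eq_zero_of_forall_mem_span hlamO fun n => (key n).2)⟩

/-- Inertia at a semistable prime `q ≠ λ` acts unipotently. -/
theorem isUnipotentOnInertiaAt_of_matches (hss : W.IsSemistableModel) (hΔ0 : W.Δ ≠ 0)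
    (hρ : MatchesCurve ρ W S) (hS : ∀ ℓ : ℕ, ℓ.Prime → ℓ ∉ S → W.IsGoodPrimeFor ℓ)
    (hlam : lam.Prime) (hlamS : lam ∈ S) (hlamO : (lam : O) ∈ IsLocalRing.maximalIdeal O)
    {q : ℕ} (hq : q.Prime) (hqlam : q ≠ lam) : ρ.IsUnipotentOnInertiaAt q := by
  intro A hA σ hσ
  have hqn : ∀ n, ¬ q ∣ lam ^ n := fun _ hd =>
    hqlam ((Nat.prime_dvd_prime_iff_eq hq hlam).1 (hq.dvd_of_dvd_pow hd))
  obtain ⟨htr, hdet⟩ := trace_det_eq_of_relation hΔ0 hρ hS hlam hlamS hlamO (σ := σ) (a := 2)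
    (d := 1) (fun n μ hμ => by rw [pow_one]; exact Arith.inertia_root hA hq hσ hμ (hqn n))
    fun n P hP => by
      rw [Nat.cast_one, one_smul]
      exact inertia_relation hss hΔ0 hq hA hσ (hqn n) hP
  rw [charpoly_two ρ.finrank_eq, show LinearMap.trace O ρ.V (ρ.ρ σ) = _ from htr, hdet,
    Int.cast_ofNat, Nat.cast_one, map_one, map_ofNat]
  ring

/-- The trace of Frobenius at a good prime `q ≠ λ` is `a_q` of the curve. -/
theorem trace_frobenius_of_matches (hΔ0 : W.Δ ≠ 0)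
    (hρ : MatchesCurve ρ W S) (hS : ∀ ℓ : ℕ, ℓ.Prime → ℓ ∉ S → W.IsGoodPrimeFor ℓ)
    (hlam : lam.Prime) (hlamS : lam ∈ S) (hlamO : (lam : O) ∈ IsLocalRing.maximalIdeal O)
    {q : ℕ} (hq : q.Prime) (hqlam : q ≠ lam) (hgood : W.IsGoodPrimeFor q)
    {A : ValuationSubring Q̄} (hA : A.LiesOverPrime q) {σ : Q̄ ≃ₐ[ℚ] Q̄}
    (hσ : A.IsFrobeniusAt σ q) : ρ.trace σ = (W.apOfModel q : O) :=
  have hqn : ∀ n, ¬ q ∣ lam ^ n := fun _ hd =>
    hqlam ((Nat.prime_dvd_prime_iff_eq hq hlam).1 (hq.dvd_of_dvd_pow hd))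
  (trace_det_eq_of_relation hΔ0 hρ hS hlam hlamS hlamO
    (fun n _ hμ => Arith.frobenius_root hA hq hσ hμ (hqn n))
    fun n _ hP => frobenius_relation hq hgood hA hσ (hqn n) hP).1

end Fermat.Agent.ConductorLevel
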